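/-
MAZUR (Track M) (helper5): **the concrete object `MzsObj` of a finite `G_ℚ`-submodule of `J₀(N)`**.

`N` a level all of whose prime divisors are `𝔭.p` (instance: `N = p` prime), `q := 𝔭.p ∥ N`;
`𝔓` a place with `P := 𝔓.p ∤ N`; `X` a finite `G_ℚ`-module killed by `P^k` with an injective
equivariant `ι : X →+ J₀(N)` and a flag of `I_𝔓`-stable subgroups with steps of index `P`.
`mzoObj` is the object of package (S):
* `Xp := X^{I_𝔭}` (`mzoXp`), `X0 := ker (ρ_𝔓 ∘ ι)` (`mzqiX0`);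
* `smooth` ← `mzli_smooth` (open stabilisers of torsion points);
* `unr`   ← (R1) + (R2) at every place `𝔩` with `𝔩.p ∉ {q, P}`;
* `ord`, `cyc`, `peu` ← (P)-INST (`mzqi_ord`, `mzqi_cyc`, `mzqi_peu`).
-/
import Fermat.Agent.Lib.Mazur.LocP.Inst.Main
import Fermat.Agent.Lib.Mazur.Locp.Inst
import Fermat.Agent.Lib.Mazur.Sel.Main

set_option autoImplicit false
set_option linter.style.haveILetI false
set_option linter.unusedSectionVars false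
set_option synthInstance.maxHeartbeats 400000

namespace Fermat.Agent.Mazur

open AlgebraicCurve ModularCurve Fermat.Agent.TW Fermat.Agent.S05Lib

local notation "Qb" => AlgebraicClosure ℚ
local notation "GQ" => (AlgebraicClosure ℚ ≃ₐ[ℚ] AlgebraicClosure ℚ)

section Xp

variable {X : Type*} [AddCommGroup X] [DistribMulAction GQ X]

/-- the invariants of the inertia group at `𝔭` -/
def mzoXp (𝔭 : FFPlace) (X : Type*) [AddCommGroup X] [DistribMulAction GQ X] : AddSubgroup X where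
  carrier := {x | ∀ i ∈ 𝔭.I, i • x = x}
  zero_mem' := fun i _ => smul_zero i
  add_mem' := fun {a b} ha hb i hi => by rw [smul_add, ha i hi, hb i hi]
  neg_mem' := fun {a} ha i hi => by rw [smul_neg, ha i hi]

theorem mem_mzoXp (𝔭 : FFPlace) (x : X) : x ∈ mzoXp 𝔭 X ↔ ∀ i ∈ 𝔭.I, i • x = x := Iff.rfl

theorem mzoXp_stable (𝔭 : FFPlace) {g : GQ} (hg : g ∈ 𝔭.D) {x : X} (hx : x ∈ mzoXp 𝔭 X) :
    g • x ∈ mzoXp 𝔭 X := by
  intro i hi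
  have h1 := hx _ (𝔭.conj_mem_I' hg hi)
  have h2 : i * g = g * (g⁻¹ * i * g) := by group
  rw [← mul_smul, h2, mul_smul, h1]

end Xp

/-- `g • x - x` is killed by what kills `x` -/
theorem mzo_nsmul_smul_sub {G A : Type*} [Monoid G] [AddCommGroup A] [DistribMulAction G A]
    (g : G) {m : ℕ} {x : A} (hx : m • x = 0) : m • (g • x - x) = 0 := by
  rw [smul_sub, smul_comm, hx, smul_zero, sub_self]

section Unr

variable (N : ℕ) [NeZero N] {X : Type*} [AddCommGroup X] [DistribMulAction GQ X]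

/-- **unramifiedness**: the inertia group at a place `𝔩` of good reduction acts trivially on the
prime-to-`𝔩.p` torsion of `J₀(N)` ((R1) + (R2)) -/
theorem mzo_unr_pt (𝔩 : FFPlace) (hN : ¬ 𝔩.p ∣ N) {m : ℕ} (hm : ¬ 𝔩.p ∣ m) (x : JZero N)
    (hx : m • x = 0) {i : GQ} (hi : i ∈ 𝔩.I) : i • x = x := by
  have h1 : mzrRho 𝔩 N hN (i • x - x) = 0 := by
    rw [map_sub, mzrRho_inertia 𝔩 N hN hi, sub_self]
  have h2 : m • (i • x - x) = 0 := mzo_nsmul_smul_sub i hx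
  exact sub_eq_zero.mp (mzrRho_injective_torsion 𝔩 N hN hm _ h2 h1)

end Unr

section Obj

variable (N : ℕ) [NeZero N] (𝔭 𝔓 : FFPlace) (hN : ¬ 𝔓.p ∣ N)
variable {X : Type} [AddCommGroup X] [DistribMulAction GQ X] [Finite X]

/-- **the concrete object of (S) attached to a finite `G_ℚ`-submodule of `J₀(N)[P^k]`** -/
noncomputable def mzoObj (hbad : ∀ ℓ : ℕ, ℓ.Prime → ℓ ∣ N → ℓ = 𝔭.p)
    (ι : X →+ JZero N) (hι : Function.Injective ι)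
    (hιG : ∀ (g : GQ) (x : X), ι (g • x) = g • ι x) (k : ℕ) (hPk : ∀ x : X, 𝔓.p ^ k • x = 0)
    (n : ℕ) (F : ℕ → AddSubgroup X) (hF0 : F 0 = ⊥) (hFn : F n = ⊤)
    (hmono : ∀ j < n, F j ≤ F (j + 1))
    (hstab : ∀ j ≤ n, ∀ τ ∈ 𝔓.I, ∀ x ∈ F j, τ • x ∈ F j)
    (hcard : ∀ j < n, (F j).relIndex (F (j + 1)) = 𝔓.p) : MzsObj 𝔭 𝔓 X where
  Xp := mzoXp 𝔭 X
  X0 := mzqiX0 𝔓 N hN ι
  smooth := mzli_smooth N ι hι hιG (pow_ne_zero k 𝔓.hp.ne_zero) hPk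
  Xp_fixed := fun i hi x hx => hx i hi
  Xp_stable := fun g hg x hx => mzoXp_stable 𝔭 hg hx
  unr := fun 𝔩 h1 h2 i hi x => by
    apply hι
    rw [hιG]
    have hlN : ¬ 𝔩.p ∣ N := fun h => h1 (hbad 𝔩.p 𝔩.hp h)
    have hlm : ¬ 𝔩.p ∣ 𝔓.p ^ k := fun h =>
      h2 ((Nat.prime_dvd_prime_iff_eq 𝔩.hp 𝔓.hp).mp (𝔩.hp.dvd_of_dvd_pow h))
    exact mzo_unr_pt N 𝔩 hlN hlm (ι x) (by rw [← map_nsmul, hPk, map_zero]) hi
  ord := mzqi_ord 𝔓 N hN ι (fun τ _ x => hιG τ x)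
  cyc := mzqi_cyc 𝔓 N hN ι hι (fun τ _ x => hιG τ x) n F hF0 hFn hmono hstab hcard
  peu := mzqi_peu 𝔓 N hN ι hι (fun τ _ x => hιG τ x) n F hF0 hFn hmono hstab hcard

variable (hbad : ∀ ℓ : ℕ, ℓ.Prime → ℓ ∣ N → ℓ = 𝔭.p)
  (ι : X →+ JZero N) (hι : Function.Injective ι)
  (hιG : ∀ (g : GQ) (x : X), ι (g • x) = g • ι x) (k : ℕ) (hPk : ∀ x : X, 𝔓.p ^ k • x = 0)
  (n : ℕ) (F : ℕ → AddSubgroup X) (hF0 : F 0 = ⊥) (hFn : F n = ⊤)
  (hmono : ∀ j < n, F j ≤ F (j + 1))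
  (hstab : ∀ j ≤ n, ∀ τ ∈ 𝔓.I, ∀ x ∈ F j, τ • x ∈ F j)
  (hcard : ∀ j < n, (F j).relIndex (F (j + 1)) = 𝔓.p)

@[simp] theorem mzoObj_Xp :
    (mzoObj N 𝔭 𝔓 hN hbad ι hι hιG k hPk n F hF0 hFn hmono hstab hcard).Xp = mzoXp 𝔭 X := rfl

@[simp] theorem mzoObj_X0 :
    (mzoObj N 𝔭 𝔓 hN hbad ι hι hιG k hPk n F hF0 hFn hmono hstab hcard).X0 =
      mzqiX0 𝔓 N hN ι := rfl

/-- **the Selmer inequality of (S) for a filtered finite `G_ℚ`-submodule of `J₀(N)[P^k]`** -/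
theorem mzo_selmer
    (hstabG : ∀ j ≤ n, ∀ (g : GQ), ∀ x ∈ F j, g • x ∈ F j)
    (htype : ∀ j < n, (∀ (g : GQ), ∀ x ∈ F (j + 1), g • x - x ∈ F j) ∨
      (∀ g : GQ, ∃ e : ℕ, (∀ ζ : Qb, ζ ^ 𝔓.p = 1 → g ζ = ζ ^ e) ∧
        ∀ x ∈ F (j + 1), g • x - e • x ∈ F j)) :
    Finite (mzoObj N 𝔭 𝔓 hN hbad ι hι hιG k hPk n F hF0 hFn hmono
        (fun j hj τ _ x hx => hstabG j hj τ x hx) hcard).str.H1 ∧
      Nat.card (mzoObj N 𝔭 𝔓 hN hbad ι hι hιG k hPk n F hF0 hFn hmono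
        (fun j hj τ _ x hx => hstabG j hj τ x hx) hcard).str.H1 *
          (mzqiX0 𝔓 N hN ι).index ≤
        Nat.card ↥(mzoObj N 𝔭 𝔓 hN hbad ι hι hιG k hPk n F hF0 hFn hmono
          (fun j hj τ _ x hx => hstabG j hj τ x hx) hcard).str.H0 * (mzoXp 𝔭 X).index :=
  mzs_main _ n F hF0 hFn hmono hstabG hcard htype

end Obj

end Fermat.Agent.Mazur
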