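/-
MAZUR (Track M) (helper5): **open stabilisers of ALL points of `J₀(N)(ℚ̄)`**.

* `mzo_place_open`   : every place `v` of `ℚ̄(X₀(N))` is fixed by `Gal(ℚ̄ / L)` for a number field `L`
  (a function `s ∈ L((2g+1)·v)` with a pole of exact order `2g+1` at `v` has `v` as its only pole;
  `s` is fixed by an open subgroup, `tdd_exists_finite_fixing`);
* `mzo_divisor_open` : the same for divisors; `mzo_point_open` : for divisor classes;
* `mzo_smooth_all`   : `g ↦ g • z` is locally constant for every `z : J₀(N)`.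
-/
import Fermat.Agent.Lib.Alpha.KM.Basic
import Fermat.Agent.Lib.T1.Dict.ConjFix
import Fermat.Agent.Lib.T3.Hecke.Modular

set_option autoImplicit false
set_option linter.style.haveILetI false
set_option linter.unusedSectionVars false
set_option synthInstance.maxHeartbeats 400000

namespace Fermat.Agent.Mazur

open AlgebraicCurve ModularCurve IntermediateField Fermat.Agent.Curve Fermat.Agent.CurveP
  Fermat.Agent.T1 Fermat.Agent.T3 Fermat.Agent.Alpha

local notation "Qb" => AlgebraicClosure ℚ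
local notation "GQ" => (AlgebraicClosure ℚ ≃ₐ[ℚ] AlgebraicClosure ℚ)

variable (N : ℕ) [NeZero N]

set_option maxHeartbeats 3200000 in
/-- **every place of `ℚ̄(X₀(N))` has an open stabiliser** -/
theorem mzo_place_open (v : Place Qb ↥(modularFunctionFieldBar N)) :
    ∃ L : IntermediateField ℚ Qb, FiniteDimensional ℚ L ∧
      ∀ σ : GQ, (∀ a ∈ L, σ a = a) →
        arithmeticGalois (modularFunctionFieldFull N) σ • v = v := by
  classical
  have hx := t3h_gen N
  haveI : Algebra.IsSeparable ↥(Qb⟮Fermat.Agent.S24Lib.jBar N⟯)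
      ↥(laurentBaseChange Qb (modularFunctionFieldFull N)) := by
    haveI := hx.finite
    haveI : CharZero ↥(Qb⟮Fermat.Agent.S24Lib.jBar N⟯) :=
      charZero_of_injective_algebraMap (algebraMap Qb ↥(Qb⟮Fermat.Agent.S24Lib.jBar N⟯)).injective
    infer_instance
  set g : ℤ := (CurveP.genusR Qb ↥(modularFunctionFieldBar N) : ℤ) with hg
  have hg0 : 0 ≤ g := Int.natCast_nonneg _
  set A : Divisor Qb ↥(modularFunctionFieldBar N) := Finsupp.single v (2 * g + 1) with hA
  have hdeg : 2 * g ≤ Divisor.degree A := by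
    rw [hA, alpk_degree_single hx]
    omega
  obtain ⟨s, hs, hs0, hord⟩ := alpk_exists_exact hx hdeg v
  have hAv : A v = 2 * g + 1 := by rw [hA, Finsupp.single_eq_same]
  obtain ⟨L, hL, hfix⟩ := tdd_exists_finite_fixing N s
  refine ⟨L, hL, fun σ hσ => ?_⟩
  set γ := arithmeticGalois (modularFunctionFieldFull N) σ with hγ
  have hγs : γ • s = s := hfix σ hσ
  have h1 : (γ • v).ord s = -(2 * g + 1) := by
    have h2 := SemilinearAut.ord_smul γ v s
    rw [hγs] at h2
    rw [h2, hord, hAv]
  by_contra hne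
  rcases (mem_riemannRochSpace_iff.mp hs) (γ • v) with h0 | h0
  · exact hs0 h0
  · have hAw : A (γ • v) = 0 := by
      rw [hA, Finsupp.single_apply, if_neg (fun h => hne h.symm)]
    rw [hAw, h1] at h0
    omega

/-- every divisor has an open stabiliser -/
theorem mzo_divisor_open (D : Divisor Qb ↥(modularFunctionFieldBar N)) :
    ∃ L : IntermediateField ℚ Qb, FiniteDimensional ℚ L ∧
      ∀ σ : GQ, (∀ a ∈ L, σ a = a) →
        arithmeticGalois (modularFunctionFieldFull N) σ • D = D := by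
  induction D using Finsupp.induction with
  | zero => exact ⟨⊥, inferInstance, fun σ _ => smul_zero _⟩
  | single_add v n D _ _ ih =>
    obtain ⟨L₁, hL₁, h₁⟩ := mzo_place_open N v
    obtain ⟨L₂, hL₂, h₂⟩ := ih
    haveI := hL₁
    haveI := hL₂
    refine ⟨L₁ ⊔ L₂, inferInstance, fun σ hσ => ?_⟩
    rw [smul_add, SemilinearAut.smul_single,
      h₁ σ (fun a ha => hσ a ((le_sup_left : L₁ ≤ L₁ ⊔ L₂) ha)),
      h₂ σ (fun a ha => hσ a ((le_sup_right : L₂ ≤ L₁ ⊔ L₂) ha))]

/-- **every point of `J₀(N)(ℚ̄)` has an open stabiliser** -/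
theorem mzo_point_open (z : JZero N) :
    ∃ L : IntermediateField ℚ Qb, FiniteDimensional ℚ L ∧
      ∀ σ : GQ, (∀ a ∈ L, σ a = a) → σ • z = z := by
  obtain ⟨D, rfl⟩ := Pic0.mk_surjective z
  obtain ⟨L, hL, hfix⟩ := mzo_divisor_open N (D : Divisor Qb ↥(modularFunctionFieldBar N))
  refine ⟨L, hL, fun σ hσ => ?_⟩
  rw [galois_smul_pic0_def, SemilinearAut.pic0_smul_mk]
  congr 1
  apply Subtype.ext
  rw [SemilinearAut.coe_degZeroSMulHom]
  exact hfix σ hσ

/-- **the Galois action on `J₀(N)(ℚ̄)` is smooth** -/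
theorem mzo_smooth_all (z : JZero N) : IsLocallyConstant (fun g : GQ => g • z) := by
  obtain ⟨L, hL, hfix⟩ := mzo_point_open N z
  haveI := hL
  rw [IsLocallyConstant.iff_exists_open]
  intro g
  refine ⟨(fun h : GQ => g * h) '' (L.fixingSubgroup : Set GQ), ?_, ?_, ?_⟩
  · exact (Homeomorph.mulLeft g).isOpenMap _ (IntermediateField.fixingSubgroup_isOpen L)
  · exact ⟨1, (L.fixingSubgroup).one_mem, mul_one g⟩
  · rintro _ ⟨h, hh, rfl⟩
    show (g * h) • z = g • z
    rw [mul_smul]
    congr 1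
    exact hfix h (fun a ha => hh ⟨a, ha⟩)

end Fermat.Agent.Mazur
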