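/-
MAZUR (Track M) (helper5), (B4): **the Kummer pair is a cone-Selmer cocycle**.

Setting of `mzoObj` (`Obj/Main.lean`): `X` a finite `G_ℚ`-module killed by `P^k`, `P = 𝔓.p`, with an
injective equivariant `ι : X →+ J₀(N)`, `N = N'·𝔭.p`, and an `I_𝔓`-stable flag.  Let `e` be a
`G_ℚ`-equivariant endomorphism of `J₀(N)` mapping `J₀(N)[P^k]` into `X` and preserving `ker ρ_𝔓`.
For a rational point `y` and `z` with `P^k • z = P^a • y`, `a = a_p + a_P`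
(`a_p = v_P(𝔭.p² - 1) + e_p` the exponent of (p-ob) `mzli_ob` under (BONUS) `#X ≤ [X : X^{I_𝔭}]² P^{e_p}`,
`a_P` the exponent of (P-w) `mzqw_main` under (N-w)), the cocycle `c g = e (g • z - z)` fits into a
pair `(c, m) ∈ Z̃¹(X)` (`mzo_kummer`).
-/
import Fermat.Agent.Lib.Mazur.Obj.Main
import Fermat.Agent.Lib.Mazur.Obj.Smooth
import Fermat.Agent.Lib.Mazur.LocP.W.Core
import Fermat.Agent.Lib.Mazur.K.Main

set_option autoImplicit false
set_option linter.style.haveILetI false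
set_option linter.unusedSectionVars false
set_option synthInstance.maxHeartbeats 400000

namespace Fermat.Agent.Mazur

open AlgebraicCurve ModularCurve Fermat.Agent.TW Fermat.Agent.S05Lib

local notation "Qb" => AlgebraicClosure ℚ
local notation "GQ" => (AlgebraicClosure ℚ ≃ₐ[ℚ] AlgebraicClosure ℚ)

section Cocycle

variable (N : ℕ) [NeZero N] {X : Type*} [AddCommGroup X] [DistribMulAction GQ X]
  (ι : X →+ JZero N) (hι : Function.Injective ι)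
  (hιG : ∀ (g : GQ) (x : X), ι (g • x) = g • ι x)
  (e : JZero N →+ JZero N) (heG : ∀ (g : GQ) (x : JZero N), e (g • x) = g • e x)

include hι hιG heG in
/-- `g ↦ e (g • w - w)` is a cocycle -/
theorem mzo_cocycle (w : JZero N) (c : GQ → X) (hc : ∀ g, ι (c g) = e (g • w - w)) :
    MzsCocycle c := by
  intro g h
  apply hι
  rw [map_add, hιG, hc, hc, hc, ← heG, ← map_add]
  congr 1
  rw [mul_smul, smul_sub]
  abel

include hι in
/-- `g ↦ e (g • w - w)` is locally constant -/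
theorem mzo_isLocallyConstant (w : JZero N) (c : GQ → X) (hc : ∀ g, ι (c g) = e (g • w - w)) :
    IsLocallyConstant c := by
  have h1 := mzo_smooth_all N w
  rw [IsLocallyConstant.iff_exists_open] at h1 ⊢
  intro g
  obtain ⟨U, hU, hgU, hUc⟩ := h1 g
  refine ⟨U, hU, hgU, fun g' hg' => hι ?_⟩
  rw [hc, hc]
  have h2 : g' • w = g • w := hUc g' hg'
  rw [h2]

end Cocycle

section Unr

variable (N : ℕ) [NeZero N]

/-- the inertia group at a place of good reduction fixes every point `x` such that `i • x - x` is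
torsion of order prime to the residue characteristic -/
theorem mzo_unr_pt' (𝔩 : FFPlace) (hN : ¬ 𝔩.p ∣ N) {m : ℕ} (hm : ¬ 𝔩.p ∣ m) (x : JZero N)
    {i : GQ} (hi : i ∈ 𝔩.I) (hx : m • (i • x - x) = 0) : i • x = x := by
  have h1 : mzrRho 𝔩 N hN (i • x - x) = 0 := by
    rw [map_sub, mzrRho_inertia 𝔩 N hN hi, sub_self]
  exact sub_eq_zero.mp (mzrRho_injective_torsion 𝔩 N hN hm _ hx h1)

end Unr

section Kummer

variable (N N' : ℕ) [NeZero N] (𝔭 𝔓 : FFPlace) (hN : ¬ 𝔓.p ∣ N)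
variable {X : Type} [AddCommGroup X] [DistribMulAction GQ X] [Finite X]

set_option maxHeartbeats 1600000 in
/-- **(B4): the Kummer pair `(g ↦ e (g • z - z), m)` is a cone-Selmer cocycle** -/
theorem mzo_kummer (hN1 : N = N' * 𝔭.p) (h𝔭 : ¬ 𝔭.p ∣ N')
    (hbad : ∀ ℓ : ℕ, ℓ.Prime → ℓ ∣ N → ℓ = 𝔭.p)
    (ι : X →+ JZero N) (hι : Function.Injective ι)
    (hιG : ∀ (g : GQ) (x : X), ι (g • x) = g • ι x) (k : ℕ) (hPk : ∀ x : X, 𝔓.p ^ k • x = 0)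
    (n : ℕ) (F : ℕ → AddSubgroup X) (hF0 : F 0 = ⊥) (hFn : F n = ⊤)
    (hmono : ∀ j < n, F j ≤ F (j + 1))
    (hstab : ∀ j ≤ n, ∀ τ ∈ 𝔓.I, ∀ x ∈ F j, τ • x ∈ F j)
    (hcard : ∀ j < n, (F j).relIndex (F (j + 1)) = 𝔓.p)
    (e : JZero N →+ JZero N) (heG : ∀ (g : GQ) (x : JZero N), e (g • x) = g • e x)
    (heX : ∀ x : JZero N, 𝔓.p ^ k • x = 0 → ∃ x' : X, ι x' = e x)
    (heρ : ∀ x : JZero N, mzrRho 𝔓 N hN x = 0 → mzrRho 𝔓 N hN (e x) = 0)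
    {ep : ℕ} (hbonus : Nat.card X ≤ (mzoXp 𝔭 X).index ^ 2 * 𝔓.p ^ ep)
    {φ : GQ} (hφ : φ ∈ 𝔓.D) (aP : ℕ)
    (hNw : ∀ χ : AddChar X Qb, ∃ χ' : AddChar X Qb, ∀ x ∈ mzqiX0 𝔓 N hN ι,
      χ x ^ (𝔓.p ^ aP) = φ (χ' (φ⁻¹ • x)) / χ' x)
    {y z : JZero N} (hy : ∀ g : GQ, g • y = y)
    (hz : 𝔓.p ^ k • z = 𝔓.p ^ (((𝔭.p ^ 2 - 1).factorization 𝔓.p + ep) + aP) • y) :
    ∃ (c : GQ → X) (m : X), (∀ g, ι (c g) = e (g • z - z)) ∧
      (c, m) ∈ (mzoObj N 𝔭 𝔓 hN hbad ι hι hιG k hPk n F hF0 hFn hmono hstab hcard).str.Z1 := by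
  classical
  set O := mzoObj N 𝔭 𝔓 hN hbad ι hι hιG k hPk n F hF0 hFn hmono hstab hcard with hO
  have hPp : (𝔓.p).Prime := 𝔓.hp
  have hPN : 𝔓.p ≠ 𝔭.p := by
    intro h
    apply hN
    rw [hN1, ← h]
    exact dvd_mul_left _ _
  set ap : ℕ := (𝔭.p ^ 2 - 1).factorization 𝔓.p + ep with hap
  have hPk0 : 𝔓.p ^ k ≠ 0 := pow_ne_zero k hPp.ne_zero
  -- a `P^k`-th root of `y`
  obtain ⟨z₁, hz₁⟩ := mzk_divisible N hPk0 y
  have hsm : ∀ (g : GQ) (m : ℕ) (x : JZero N), m • (g • x) = g • (m • x) := fun g m x =>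
    (map_nsmul (DistribSMul.toAddMonoidHom (JZero N) g) m x).symm
  -- differences are torsion
  have htor₁ : ∀ g : GQ, 𝔓.p ^ k • (g • z₁ - z₁) = 0 := fun g => by
    rw [nsmul_sub, hsm, hz₁, hy, sub_self]
  have htor : ∀ g : GQ, 𝔓.p ^ k • (g • z - z) = 0 := fun g => by
    rw [nsmul_sub, hsm, hz, ← hsm, hy, sub_self]
  set t : JZero N := z - 𝔓.p ^ (ap + aP) • z₁ with ht
  have htort : 𝔓.p ^ k • t = 0 := by
    rw [ht, nsmul_sub, hz, ← mul_nsmul', mul_comm, mul_nsmul', hz₁, sub_self]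
  -- the cocycles
  choose c hc using fun g : GQ => heX (g • z - z) (htor g)
  choose c₁ hc₁ using fun g : GQ => heX (g • z₁ - z₁) (htor₁ g)
  obtain ⟨m₀, hm₀⟩ := heX t htort
  have hcoc : MzsCocycle c := mzo_cocycle N ι hι hιG e heG z c hc
  have hlc : IsLocallyConstant c := mzo_isLocallyConstant N ι hι e z c hc
  have hcoc₁ : MzsCocycle c₁ := mzo_cocycle N ι hι hιG e heG z₁ c₁ hc₁
  have hlc₁ : IsLocallyConstant c₁ := mzo_isLocallyConstant N ι hι e z₁ c₁ hc₁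
  -- `c = P^a • c₁ + d m₀`
  have hdec : ∀ g : GQ, c g = 𝔓.p ^ (ap + aP) • c₁ g + (g • m₀ - m₀) := by
    intro g
    apply hι
    have e1 : ι (𝔓.p ^ (ap + aP) • c₁ g + (g • m₀ - m₀)) =
        e (𝔓.p ^ (ap + aP) • (g • z₁ - z₁) + (g • t - t)) := by
      rw [map_add ι, map_nsmul ι, map_sub ι, hιG, hc₁, hm₀, ← heG, ← map_nsmul e, ← map_sub e,
        ← map_add e]
    rw [hc, e1]
    congr 1
    rw [ht, smul_sub, nsmul_sub, hsm]
    abel
  -- (p-ob)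
  obtain ⟨m₁, hm₁⟩ := mzli_ob N N' 𝔭 hN1 h𝔭 hPp hPN ι hι hιG hPk
    (fun x => mem_mzoXp 𝔭 x) hbonus hcoc₁ hlc₁
  set m : X := 𝔓.p ^ aP • m₁ + m₀ with hm
  have hsmX : ∀ (g : GQ) (r : ℕ) (x : X), r • (g • x) = g • (r • x) := fun g r x =>
    (map_nsmul (DistribSMul.toAddMonoidHom X g) r x).symm
  have hI : ∀ i ∈ 𝔭.I, c i = i • m - m := by
    intro i hi
    rw [hdec i, pow_add, mul_comm, mul_nsmul', hm₁ i hi, hm, smul_add, nsmul_sub, hsmX]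
    abel
  -- the reduction of `c` on `I_𝔓`
  have hX0 : ∀ (w : JZero N) (c' : GQ → X), (∀ g, ι (c' g) = e (g • w - w)) →
      ∀ i ∈ 𝔓.I, c' i ∈ mzqiX0 𝔓 N hN ι := by
    intro w c' hc' i hi
    rw [mem_mzqiX0, hc']
    apply heρ
    rw [map_sub, mzrRho_inertia 𝔓 N hN hi, sub_self]
  refine ⟨c, m, hc, hlc, hcoc, ⟨?_, hX0 z c hc, ?_⟩, hI, ?_⟩
  · -- unramified outside `𝔭`, `𝔓`
    intro 𝔩 h1 h2 i hi
    apply hι
    rw [hc, map_zero]
    have hlN : ¬ 𝔩.p ∣ N := fun h => h1 (hbad 𝔩.p 𝔩.hp h)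
    have hlm : ¬ 𝔩.p ∣ 𝔓.p ^ k := fun h =>
      h2 ((Nat.prime_dvd_prime_iff_eq 𝔩.hp 𝔓.hp).mp (𝔩.hp.dvd_of_dvd_pow h))
    rw [mzo_unr_pt' N 𝔩 hlN hlm z hi (htor i), sub_self, map_zero]
  · -- peu ramifié
    intro χ
    set c' : GQ → X := fun g => 𝔓.p ^ ap • c₁ g with hc'
    have hcoc' : MzsCocycle c' := by
      intro g h
      show 𝔓.p ^ ap • c₁ (g * h) = 𝔓.p ^ ap • c₁ g + g • (𝔓.p ^ ap • c₁ h)
      rw [hcoc₁ g h, nsmul_add, hsmX]
    have hlc' : IsLocallyConstant c' := hlc₁.comp (fun x : X => 𝔓.p ^ ap • x)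
    have hord' : ∀ i ∈ 𝔓.I, c' i ∈ O.X0 := fun i hi =>
      AddSubgroup.nsmul_mem _ (hX0 z₁ c₁ hc₁ i hi) _
    have h1 := mzqw_main O hφ aP hNw c' hlc' hcoc' hord' χ
    have h2 := O.peu m₀ χ
    refine (h1.mul h2).congr (fun i _ => ?_)
    show χ (c i) = χ (𝔓.p ^ aP • c' i) * χ (i • m₀ - m₀)
    rw [← AddChar.map_add_eq_mul, hdec i, hc', pow_add, mul_comm, mul_nsmul']
  · -- the cone condition on `D_𝔭`
    intro g hg
    show c g - (g • m - m) ∈ mzoXp 𝔭 X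
    intro i hi
    have hcoc'' : MzsCocycle (c + -(mzsD GQ m)) := hcoc.add (mzsCocycle_D m).neg
    have h0 : ∀ j ∈ 𝔭.I, (c + -(mzsD GQ m)) j = 0 := by
      intro j hj
      show c j + -(j • m - m) = 0
      rw [hI j hj, add_neg_cancel]
    have h3 := mzl_values_fixed 𝔭 hcoc'' h0 hg hi
    have h4 : (c + -(mzsD GQ m)) g = c g - (g • m - m) := by
      show c g + -(g • m - m) = c g - (g • m - m)
      exact (sub_eq_add_neg _ _).symm
    rw [h4] at h3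
    exact h3

end Kummer

end Fermat.Agent.Mazur
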