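/-
MAZUR (Track M) (helper5): **(N-A) glue** — a uniform bound for `#H̃⁰` of the finite `G_ℚ`-submodules
of `J₀(N)`.

For an auxiliary place `𝔯` of good reduction (`𝔯.p ∤ N`), `mzrRho_ncard_le` ((R2) + (R3)) bounds every
set of rational torsion points of order prime to `𝔯.p` by a constant `C`; hence
`#H̃⁰(X) = #(X^{G_ℚ} ∩ Xp) ≤ C` for every `G_ℚ`-module `X` killed by `m` (`𝔯.p ∤ m`) with an injective
equivariant map to `J₀(N)` and every cone-Selmer structure on it (`mzo_card_H0_le`).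
-/
import Fermat.Agent.Lib.Mazur.Red.R3
import Fermat.Agent.Lib.Mazur.Sel.Defs

set_option autoImplicit false
set_option linter.style.haveILetI false
set_option linter.unusedSectionVars false
set_option synthInstance.maxHeartbeats 400000

namespace Fermat.Agent.Mazur

open AlgebraicCurve ModularCurve Fermat.Agent.TW

local notation "Qb" => AlgebraicClosure ℚ
local notation "GQ" => (AlgebraicClosure ℚ ≃ₐ[ℚ] AlgebraicClosure ℚ)

/-- **(N-A)**: `#H̃⁰(X) ≤ C` uniformly in `X ↪ J₀(N)` killed by an integer prime to `𝔯.p` -/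
theorem mzo_card_H0_le (N : ℕ) [NeZero N] (𝔯 : FFPlace) (hr : ¬ 𝔯.p ∣ N) :
    ∃ C : ℕ, ∀ m : ℕ, ¬ 𝔯.p ∣ m → ∀ {X : Type} [AddCommGroup X] [DistribMulAction GQ X]
      (ι : X →+ JZero N), Function.Injective ι → (∀ (g : GQ) (x : X), ι (g • x) = g • ι x) →
      (∀ x : X, m • x = 0) → ∀ {Dp Ip : Subgroup GQ} (S : MzsStr GQ X Dp Ip),
        Finite ↥S.H0 ∧ Nat.card ↥S.H0 ≤ C := by
  obtain ⟨C, hC⟩ := mzrRho_ncard_le 𝔯 N hr
  refine ⟨C, fun m hm X _ _ ι hι hιG hmX Dp Ip S => ?_⟩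
  set T : Set (JZero N) := ι '' (S.H0 : Set X) with hT
  obtain ⟨hTfin, hTcard⟩ := hC m hm T
    (by
      rintro _ ⟨x, _, rfl⟩
      rw [← map_nsmul, hmX, map_zero])
    (by
      rintro _ ⟨x, hx, rfl⟩ σ
      rw [← hιG, (S.mem_H0.mp hx).1 σ])
  have hfin : (S.H0 : Set X).Finite := hTfin.of_finite_image hι.injOn
  have hcard : Nat.card ↥S.H0 = T.ncard := by
    rw [hT, Set.ncard_image_of_injective _ hι]
    exact Nat.card_coe_set_eq _
  exact ⟨hfin.to_subtype, hcard ▸ hTcard⟩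

end Fermat.Agent.Mazur
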